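import Mathlib
import Fermat.Agent.S27.Lift.GenProps
import Fermat.Agent.S27.Lift.FieldK

set_option autoImplicit false

/-!
# S27, seat E, leaf CONJ, part 1: value maps of generic places

* `cj_over_smul`, `cj_over_unique`, `cj_ev_smul` : equivariance (local copies, seat BASIC);
* `cjEval B hE0 P c hc hP : F →+* Ω` : the value map `f ↦ ev P (φ f)` of a place over a
  transcendental value, a ring homomorphism;
* `cj_eval_eq_of_gen` : two ring homomorphisms `F → Ω` which agree on `K`, `x`, `y` are equal if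
  `K(x)(y) = F`.
-/

noncomputable section

namespace Fermat.Agent.S27

open AlgebraicCurve Fermat.Agent.RR IntermediateField

universe uK uF uΩ uFΩ

variable {K : Type uK} {F : Type uF} {Ω : Type uΩ} {FΩ : Type uFΩ}
  [Field K] [Field F] [Field Ω] [Field FΩ] [Algebra K F] [Algebra K Ω] [Algebra Ω FΩ]

variable (B : BCSetup K F Ω FΩ)

/-- the action on the constants -/
theorem cj_act_algebraMap (σ : Ω ≃ₐ[K] Ω) (a : Ω) :
    B.act σ • algebraMap Ω FΩ a = algebraMap Ω FΩ (σ a) := by
  rw [SemilinearAut.smul_algebraMap, B.baseAut_act]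

theorem cj_over_smul {x : F} {P : Place Ω FΩ} {c : Ω} (σ : Ω ≃ₐ[K] Ω)
    (h : Over (B.φ x) P c) : Over (B.φ x) (B.act σ • P) (σ c) := by
  unfold Over at *
  have e : B.φ x - algebraMap Ω FΩ (σ c) = B.act σ • (B.φ x - algebraMap Ω FΩ c) := by
    rw [smul_sub, B.act_φ, cj_act_algebraMap]
  rw [e, SemilinearAut.ord_smul]
  exact h

theorem cj_ev_of_over {u : FΩ} {P : Place Ω FΩ} {c : Ω} (h : Over u P c) :
    Fermat.Agent.S17.Pts.ev P u = c :=
  Fermat.Agent.S17.Pts.ev_eq_of_congAt (Or.inr h)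

theorem cj_over_unique {u : FΩ} {P : Place Ω FΩ} {c c' : Ω} (h : Over u P c)
    (h' : Over u P c') : c = c' := by
  rw [← cj_ev_of_over h, cj_ev_of_over h']

/-- equivariance of the value -/
theorem cj_ev_smul (σ : Ω ≃ₐ[K] Ω) (P : Place Ω FΩ) {f : FΩ} (hf : 0 ≤ P.ord f) :
    Fermat.Agent.S17.Pts.ev (B.act σ • P) (B.act σ • f)
      = σ (Fermat.Agent.S17.Pts.ev P f) := by
  apply Fermat.Agent.S17.Pts.ev_eq_of_congAt
  rcases Fermat.Agent.S17.Pts.congAt_ev B.hΩ P hf with h | h
  · left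
    conv_lhs => rw [h]
    rw [cj_act_algebraMap]
  · right
    have e : B.act σ • f - algebraMap Ω FΩ (σ (Fermat.Agent.S17.Pts.ev P f))
        = B.act σ • (f - algebraMap Ω FΩ (Fermat.Agent.S17.Pts.ev P f)) := by
      rw [smul_sub, cj_act_algebraMap]
    rw [e, SemilinearAut.ord_smul]
    exact h

/-- the value map of a generic place -/
def cjEval (P : Place Ω FΩ) (hP : IsGenPl B P) : F →+* Ω where
  toFun f := Fermat.Agent.S17.Pts.ev P (B.φ f)
  map_one' := by rw [map_one, Fermat.Agent.S17.Pts.ev_one]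
  map_zero' := by rw [map_zero, Fermat.Agent.S17.Pts.ev_zero]
  map_mul' f g := by
    rw [map_mul]
    exact Fermat.Agent.S17.Pts.ev_mul B.hΩ P (hP f).ge (hP g).ge
  map_add' f g := by
    rw [map_add]
    exact Fermat.Agent.S17.Pts.ev_add B.hΩ P (hP f).ge (hP g).ge

theorem cjEval_apply (P : Place Ω FΩ) (hP : IsGenPl B P) (f : F) :
    cjEval B P hP f = Fermat.Agent.S17.Pts.ev P (B.φ f) := rfl

theorem cjEval_algebraMap (P : Place Ω FΩ) (hP : IsGenPl B P) (a : K) :
    cjEval B P hP (algebraMap K F a) = algebraMap K Ω a := by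
  rw [cjEval_apply, B.isConstExt.comm, Fermat.Agent.S17.Pts.ev_algebraMap]

theorem cjEval_x {x : F} {P : Place Ω FΩ} (hP : IsGenPl B P) {c : Ω}
    (h : Over (B.φ x) P c) : cjEval B P hP x = c :=
  cj_ev_of_over h

/-- a translate of a generic place is generic -/
theorem cj_isGenPl_smul (σ : Ω ≃ₐ[K] Ω) {P : Place Ω FΩ} (hP : IsGenPl B P) :
    IsGenPl B (B.act σ • P) := by
  intro f
  have := SemilinearAut.ord_smul (B.act σ) P (B.φ f)
  rw [B.act_φ] at this
  rw [this]
  exact hP f

theorem cjEval_smul (σ : Ω ≃ₐ[K] Ω) (P : Place Ω FΩ) (hP : IsGenPl B P) (f : F) :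
    cjEval B (B.act σ • P) (cj_isGenPl_smul B σ hP) f = σ (cjEval B P hP f) := by
  rw [cjEval_apply, cjEval_apply, ← cj_ev_smul B σ P (hP f).ge, B.act_φ]

/-- two ring homomorphisms on `F = K(x)(y)` which agree on `K`, `x` and `y` are equal -/
theorem cj_ringHom_ext {x y : F} (hy : K⟮x⟯⟮y⟯ = ⊤) (ε₁ ε₂ : F →+* Ω)
    (hK : ∀ a : K, ε₁ (algebraMap K F a) = ε₂ (algebraMap K F a))
    (hx : ε₁ x = ε₂ x) (hy' : ε₁ y = ε₂ y) (f : F) : ε₁ f = ε₂ f := by
  -- the equalizer, as an intermediate field of `F / K`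
  let T : IntermediateField K F :=
    { carrier := {f | ε₁ f = ε₂ f}
      mul_mem' := fun {a b} ha hb => by
        show ε₁ (a * b) = ε₂ (a * b)
        rw [map_mul, map_mul, ha, hb]
      one_mem' := by
        show ε₁ 1 = ε₂ 1
        rw [map_one, map_one]
      add_mem' := fun {a b} ha hb => by
        show ε₁ (a + b) = ε₂ (a + b)
        rw [map_add, map_add, ha, hb]
      zero_mem' := by
        show ε₁ 0 = ε₂ 0
        rw [map_zero, map_zero]
      algebraMap_mem' := hK
      inv_mem' := fun a ha => by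
        show ε₁ a⁻¹ = ε₂ a⁻¹
        rw [map_inv₀, map_inv₀, ha] }
  have h1 : K⟮x⟯ ≤ T := by
    rw [IntermediateField.adjoin_le_iff]
    intro z hz
    rw [Set.mem_singleton_iff] at hz
    subst hz
    exact hx
  -- the same set as an intermediate field of `F / K(x)`
  let T' : IntermediateField K⟮x⟯ F :=
    { carrier := {f | ε₁ f = ε₂ f}
      mul_mem' := T.mul_mem'
      one_mem' := T.one_mem'
      add_mem' := T.add_mem'
      zero_mem' := T.zero_mem'
      algebraMap_mem' := fun a => h1 a.2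
      inv_mem' := T.inv_mem' }
  have h2 : K⟮x⟯⟮y⟯ ≤ T' := by
    rw [IntermediateField.adjoin_le_iff]
    intro z hz
    rw [Set.mem_singleton_iff] at hz
    subst hz
    exact hy'
  rw [hy] at h2
  exact h2 (IntermediateField.mem_top (x := f))

end Fermat.Agent.S27
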