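import Mathlib
import Fermat.Agent.S27.Lift.Conj.Basic
import Fermat.Agent.Lib.RR.Riemann

set_option autoImplicit false

/-!
# S27, seat E, leaf CONJ, part 2: linear disjointness at a generic place

`M = closFieldK K S`, `c ∉ M`, `P` a place over `c`, `p = ev P (φ y)`.  Then the monomials
`c^j p^i` (`i < N = deg (minpoly K(x) y)`) are linearly independent over `M`  (`cj_LD`).

Proof: a relation `Σ e_ij c^j p^i = 0`, `e_ij ∈ M`, gives the function
`u = Σ e_ij φ(x^j y^i) ∈ FΩ`, nonzero by `IsConstExt.ld`, with a zero at `P`, fixed by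
`galOverK K S`; so `u` vanishes at all translates of `P`, which lie over `c + a`, `a ∈ K`:
infinitely many zeros.
-/

noncomputable section

namespace Fermat.Agent.S27

open AlgebraicCurve Fermat.Agent.RR IntermediateField Fermat.Agent.ConstExt

universe uK uF uΩ uFΩ

variable {K : Type uK} {F : Type uF} {Ω : Type uΩ} {FΩ : Type uFΩ}
  [Field K] [Field F] [Field Ω] [Field FΩ] [Algebra K F] [Algebra K Ω] [Algebra Ω FΩ]

variable (B : BCSetup K F Ω FΩ)

/-- a `K`-linearly independent family of `F` stays linearly independent over `Ω` -/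
theorem cj_linearIndependent_map {ι : Type*} (v : ι → F) (hv : LinearIndependent K v) :
    LinearIndependent Ω (fun a => B.φ (v a)) := by
  classical
  rw [linearIndependent_iff']
  intro s g hsum a ha
  have hΦ : Phi K Ω B.φ (∑ b ∈ s, E (g b) (v b)) = 0 := by
    rw [map_sum]
    rw [← hsum]
    refine Finset.sum_congr rfl fun b _ => ?_
    rw [Phi_E B.isConstExt, Algebra.smul_def]
  have hG : (∑ b ∈ s, E (K := K) (g b) (v b)) = 0 :=
    (injective_iff_map_eq_zero (Phi K Ω B.φ)).mp (Phi_injective B.isConstExt) _ hΦ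
  have hj : ∀ j : Idx K Ω, (bas K Ω).repr (g a) j = 0 := by
    intro j
    have h1 : (∑ b ∈ s, E (K := K) (g b) (v b)) j = 0 := by rw [hG]; rfl
    rw [Finsupp.finsetSum_apply] at h1
    have h2 : ∑ b ∈ s, ((bas K Ω).repr (g b) j) • v b = 0 := by
      rw [← h1]
      refine Finset.sum_congr rfl fun b _ => ?_
      rw [E_apply]
    exact (linearIndependent_iff'.mp hv) s (fun b => (bas K Ω).repr (g b) j) h2 a ha
  have : (bas K Ω).repr (g a) = 0 := Finsupp.ext hj
  exact (LinearEquiv.map_eq_zero_iff _).mp this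

/-- the value of a finite sum of functions regular at `P` -/
theorem cj_ev_sum (hΩ : IsRRField Ω FΩ) (P : Place Ω FΩ) {ι : Type*} (s : Finset ι) (t : ι → FΩ)
    (ht : ∀ a ∈ s, 0 ≤ P.ord (t a)) :
    0 ≤ P.ord (∑ a ∈ s, t a) ∧
      Fermat.Agent.S17.Pts.ev P (∑ a ∈ s, t a) = ∑ a ∈ s, Fermat.Agent.S17.Pts.ev P (t a) := by
  classical
  induction s using Finset.induction_on with
  | empty =>
    simp only [Finset.sum_empty]
    exact ⟨by simp, Fermat.Agent.S17.Pts.ev_zero P⟩
  | insert a s ha ih =>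
    have h1 := ih fun b hb => ht b (Finset.mem_insert_of_mem hb)
    have h2 := ht a (Finset.mem_insert_self a s)
    rw [Finset.sum_insert ha, Finset.sum_insert ha]
    refine ⟨?_, ?_⟩
    · apply Fermat.Agent.S24Res.ord_nonneg_of_mem
      exact add_mem (Fermat.Agent.S24Res.mem_of_ord_nonneg P h2)
        (Fermat.Agent.S24Res.mem_of_ord_nonneg P h1.1)
    · rw [Fermat.Agent.S17.Pts.ev_add hΩ P h2 h1.1, h1.2]

/-- an element outside `closFieldK K S` is transcendental over `K` -/
theorem cj_transcendental {S : Set Ω} {c : Ω} (hc : c ∉ closFieldK K S) : Transcendental K c :=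
  fun h => hc (mem_closFieldK_of_isAlgebraic h S)

variable [IsAlgClosed K] [IsAlgClosed Ω]

/-- **linear disjointness at a generic place** -/
theorem cj_LD {x : F} (hx : Transcendental K x) (hE0 : GenericOfOver B x) {S : Set Ω} {c : Ω}
    (hc : c ∉ closFieldK K S) {P : Place Ω FΩ} (hPc : Over (B.φ x) P c) (y : F)
    (s : Finset (ℕ × Fin (minpoly K⟮x⟯ y).natDegree))
    (g : ℕ × Fin (minpoly K⟮x⟯ y).natDegree → Ω) (hg : ∀ a ∈ s, g a ∈ closFieldK K S)
    (h0 : ∑ a ∈ s, g a * (c ^ a.1 * (Fermat.Agent.S17.Pts.ev P (B.φ y)) ^ (a.2 : ℕ)) = 0) :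
    ∀ a ∈ s, g a = 0 := by
  classical
  have hP : IsGenPl B P := hE0 P c (cj_transcendental hc) hPc
  set v : ℕ × Fin (minpoly K⟮x⟯ y).natDegree → F := fun a => x ^ a.1 * y ^ (a.2 : ℕ) with hv
  have hLI : LinearIndependent K v :=
    linearIndependent_pow_mul hx (fun i : Fin (minpoly K⟮x⟯ y).natDegree => y ^ (i : ℕ))
      (linearIndependent_pow y)
  have hLIΩ := cj_linearIndependent_map B v hLI
  set u : FΩ := ∑ a ∈ s, g a • B.φ (v a) with hu
  by_contra hne
  have hu0 : u ≠ 0 := by
    intro h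
    exact hne ((linearIndependent_iff'.mp hLIΩ) s g h)
  -- `u` is regular at `P` with value `0`
  have hterm : ∀ a ∈ s, 0 ≤ P.ord (g a • B.φ (v a)) := by
    intro a _
    apply Fermat.Agent.S24Res.ord_nonneg_of_mem
    rw [Algebra.smul_def]
    exact mul_mem (P.algebraMap_mem' (g a)) (Fermat.Agent.S24Res.mem_of_ord_nonneg P (hP (v a)).ge)
  obtain ⟨hord, hev⟩ := cj_ev_sum B.hΩ P s (fun a => g a • B.φ (v a)) hterm
  have hev0 : Fermat.Agent.S17.Pts.ev P u = 0 := by
    rw [hu, hev, ← h0]
    refine Finset.sum_congr rfl fun a _ => ?_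
    rw [Fermat.Agent.S17.Pts.ev_smul_const B.hΩ P (g a) (hP (v a)).ge]
    congr 1
    have h1 : Fermat.Agent.S17.Pts.ev P (B.φ (v a)) = cjEval B P hP (v a) := rfl
    rw [h1, hv]
    simp only [map_mul, map_pow]
    rw [cjEval_x B hP hPc]
    rfl
  have hpos : 0 < P.ord u := (Fermat.Agent.S17.Pts.ev_eq_zero_iff B.hΩ P hu0 hord).mp hev0
  -- the translates
  choose τ hτ hτc using fun a : K => exists_galOverK_translate (K := K) S hc a
  have hfix : ∀ a : K, B.act (τ a) • u = u := by
    intro a
    rw [hu, Finset.smul_sum]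
    refine Finset.sum_congr rfl fun b hb => ?_
    rw [Algebra.smul_def, smul_mul', cj_act_algebraMap, B.act_φ,
      (mem_galOverK.mp (hτ a)) (g b) (hg b hb)]
  have hzero : ∀ a : K, B.act (τ a) • P ∈ {w : Place Ω FΩ | 0 < w.ord u} := by
    intro a
    show 0 < (B.act (τ a) • P).ord u
    have := SemilinearAut.ord_smul (B.act (τ a)) P u
    rw [hfix a] at this
    rw [this]
    exact hpos
  have hinj : Function.Injective fun a : K => B.act (τ a) • P := by
    intro a b hab
    have h1 := cj_over_smul B (τ a) hPc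
    have h2 := cj_over_smul B (τ b) hPc
    have hab' : B.act (τ a) • P = B.act (τ b) • P := hab
    rw [hab'] at h1
    have h3 := cj_over_unique h1 h2
    rw [hτc a, hτc b] at h3
    exact (algebraMap K Ω).injective (add_left_cancel h3)
  have hinf : (Set.range fun a : K => B.act (τ a) • P).Infinite :=
    Set.infinite_range_of_injective hinj
  refine hinf ((finite_zeros B.hΩ u).subset ?_)
  rintro _ ⟨a, rfl⟩
  exact hzero a

end Fermat.Agent.S27
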